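import Fermat.Agent.S05.SameRed
import Fermat.Agent.S05.XId
import Fermat.Agent.S05.C1b

/-!
# The kernel of reduction is a subgroup (S52 piece A1b, part 4)

For any valuation `v` on `K` and any Weierstrass curve `W` over `K` with `v`-integral
coefficients (no hypothesis on the discriminant, no hypothesis on the residue characteristic),
`E₁ = {O} ∪ {(x, y) : 1 < v x}` (`Fermat.Agent.S05.SameRed.InKer`) is closed under negation and
addition.
-/

set_option autoImplicit false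

namespace Fermat.Agent.Lib.Red.H290

open WeierstrassCurve WeierstrassCurve.Affine
open Fermat.Agent.S05.SameRed
open Fermat.Agent.S05 (XId.add_sub_some XId.add_self_some)

variable {K : Type*} [Field K] {Γ₀ : Type*} [LinearOrderedCommGroupWithZero Γ₀]
  {v : Valuation K Γ₀}

/-- Roots of `z² - σ z + π` with `σ, π` in the maximal ideal lie in the maximal ideal. -/
lemma val_lt_one_of_sum_prod {z w : K} (hs : v (z + w) < 1) (hp : v (z * w) < 1) : v z < 1 := by
  by_contra hz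
  have hz1 : 1 ≤ v z := not_lt.mp hz
  have hz0 : 0 < v z := lt_of_lt_of_le zero_lt_one hz1
  have e : z ^ 2 = (z + w) * z + -(z * w) := by ring
  have h1 : v ((z + w) * z) < v z := by
    rw [map_mul]
    calc v (z + w) * v z < 1 * v z := mul_lt_mul_of_pos_right hs hz0
      _ = v z := one_mul _
  have h2 : v (-(z * w)) < v z := by
    rw [Valuation.map_neg]; exact lt_of_lt_of_le hp hz1
  have h3 : v (z ^ 2) < v z := by
    rw [e]; exact v.map_add_lt h1 h2
  have h4 : v z ≤ v (z ^ 2) := by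
    rw [map_pow, pow_two]
    exact le_mul_of_one_le_right' hz1
  exact absurd (lt_of_le_of_lt h4 h3) (lt_irrefl _)

lemma val_inv_lt_one {x : K} (hx : 1 < v x) : v x⁻¹ < 1 := by
  rw [map_inv₀]; exact inv_lt_one_of_one_lt₀ hx

lemma ne_zero_of_one_lt_val {x : K} (hx : 1 < v x) : x ≠ 0 := by
  rintro rfl
  rw [map_zero] at hx
  exact not_lt_zero hx

lemma one_lt_val_of_inv_lt_one {x : K} (hx0 : x ≠ 0) (hx : v x⁻¹ < 1) : 1 < v x := by
  rw [map_inv₀] at hx
  have hpos : 0 < v x := (Valuation.pos_iff v).mpr hx0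
  exact (inv_lt_one₀ hpos).mp hx

variable [DecidableEq K] {W : Affine K}

omit [DecidableEq K] in
lemma inKer_neg {P : W.Point} (hP : InKer W v P) : InKer W v (-P) := by
  rcases P with _ | ⟨x, y, hxy⟩
  · exact hP
  · exact hP

omit [DecidableEq K] in
private lemma v_b (hW : IntegralCoeffs W v) :
    v W.b₂ ≤ 1 ∧ v W.b₄ ≤ 1 ∧ v W.b₆ ≤ 1 ∧ v W.b₈ ≤ 1 :=
  have h := Fermat.Agent.S05.C1b.isIntegralAt_of_integralCoeffs hW
  ⟨Fermat.Agent.S05.FG.v_b₂ h, Fermat.Agent.S05.FG.v_b₄ h, Fermat.Agent.S05.FG.v_b₆ h,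
    Fermat.Agent.S05.FG.v_b₈ h⟩

/-- Chord case of the subgroup property. -/
lemma one_lt_val_of_sum_prod (hW : IntegralCoeffs W v) {x₁ x₂ x₃ x₄ : K} (hx₁ : 1 < v x₁)
    (hx₂ : 1 < v x₂)
    (hsum : (x₁ - x₂) ^ 2 * (x₃ + x₄) = Fermat.Agent.S05.XId.sumNum W x₁ x₂)
    (hprod : (x₁ - x₂) ^ 2 * (x₃ * x₄) = Fermat.Agent.S05.XId.prodNum W x₁ x₂) :
    1 < v x₃ := by
  obtain ⟨hb2, hb4, hb6, hb8⟩ := v_b hW
  have h10 := ne_zero_of_one_lt_val hx₁
  have h20 := ne_zero_of_one_lt_val hx₂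
  have hsv : v x₁⁻¹ < 1 := val_inv_lt_one hx₁
  have htv : v x₂⁻¹ < 1 := val_inv_lt_one hx₂
  obtain ⟨s, hs0, rfl⟩ : ∃ s : K, s ≠ 0 ∧ x₁ = s⁻¹ := ⟨x₁⁻¹, inv_ne_zero h10, (inv_inv _).symm⟩
  obtain ⟨t, ht0, rfl⟩ : ∃ t : K, t ≠ 0 ∧ x₂ = t⁻¹ := ⟨x₂⁻¹, inv_ne_zero h20, (inv_inv _).symm⟩
  rw [inv_inv] at hsv htv
  have h2 : v (2 : K) ≤ 1 := by
    have := val_natCast_le_one (v := v) 2
    simpa using this
  have hst : v (s * t) < 1 := val_mul_lt_one_left hsv htv.le
  have hspt : v (s + t) < 1 := val_add_lt_one hsv htv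
  set V : K := 1 - W.b₄ * (s * t) - W.b₆ * ((s * t) * (s + t)) - W.b₈ * (s * t) ^ 2 with hV
  set U : K := 2 * (s + t) + W.b₂ * (s * t) + W.b₄ * ((s * t) * (s + t)) + W.b₆ * (s * t) ^ 2
    with hU
  have hUv : v U < 1 := by
    refine val_add_lt_one (val_add_lt_one (val_add_lt_one ?_ ?_) ?_) ?_
    · exact val_mul_lt_one_right h2 hspt
    · exact val_mul_lt_one_right hb2 hst
    · exact val_mul_lt_one_right hb4 (val_mul_lt_one_left hst hspt.le)
    · exact val_mul_lt_one_right hb6 (by rw [pow_two]; exact val_mul_lt_one_left hst hst.le)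
  have hVv : v V = 1 := by
    have hrest : v (V - 1) < 1 := by
      have : V - 1 = -(W.b₄ * (s * t)) + -(W.b₆ * ((s * t) * (s + t))) +
          -(W.b₈ * (s * t) ^ 2) := by
        simp only [hV]; ring
      rw [this]
      refine val_add_lt_one (val_add_lt_one ?_ ?_) ?_
      · rw [Valuation.map_neg]; exact val_mul_lt_one_right hb4 hst
      · rw [Valuation.map_neg]
        exact val_mul_lt_one_right hb6 (val_mul_lt_one_left hst hspt.le)
      · rw [Valuation.map_neg]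
        exact val_mul_lt_one_right hb8 (by rw [pow_two]; exact val_mul_lt_one_left hst hst.le)
    have : V = 1 + (V - 1) := by ring
    rw [this, v.map_add_eq_of_lt_left (by rwa [map_one]), map_one]
  have hV0 : V ≠ 0 := by
    intro h0; rw [h0, map_zero] at hVv; exact zero_ne_one hVv
  -- the two identities in terms of `s`, `t`
  have hD : (s⁻¹ - t⁻¹) ^ 2 * (s * t) ^ 2 = (t - s) ^ 2 := by
    field_simp
  have hU' : Fermat.Agent.S05.XId.sumNum W s⁻¹ t⁻¹ * (s * t) ^ 2 = U := by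
    simp only [Fermat.Agent.S05.XId.sumNum, hU]
    field_simp
    ring
  have hV' : Fermat.Agent.S05.XId.prodNum W s⁻¹ t⁻¹ * (s * t) ^ 2 = V := by
    simp only [Fermat.Agent.S05.XId.prodNum, hV]
    field_simp
    ring
  have e1 : (t - s) ^ 2 * (x₃ + x₄) = U := by
    linear_combination (s * t) ^ 2 * hsum - (x₃ + x₄) * hD + hU'
  have e2 : (t - s) ^ 2 * (x₃ * x₄) = V := by
    linear_combination (s * t) ^ 2 * hprod - (x₃ * x₄) * hD + hV'
  have hts : v (t - s) < 1 := by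
    have : t - s = t + -s := by ring
    rw [this]; exact val_add_lt_one htv (by rwa [Valuation.map_neg])
  have h34 : x₃ * x₄ ≠ 0 := by
    intro h0; rw [h0, mul_zero] at e2; exact hV0 e2.symm
  have h30 : x₃ ≠ 0 := left_ne_zero_of_mul h34
  have h40 : x₄ ≠ 0 := right_ne_zero_of_mul h34
  have hts0 : (t - s) ^ 2 ≠ 0 := by
    intro h0; rw [h0, zero_mul] at e2; exact hV0 e2.symm
  -- `z = 1/x₃`, `w = 1/x₄`
  have hzw : x₃⁻¹ * x₄⁻¹ = (t - s) ^ 2 / V := by
    rw [eq_div_iff hV0, ← e2]; field_simp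
  have hzpw : x₃⁻¹ + x₄⁻¹ = U / V := by
    rw [eq_div_iff hV0, ← e1, ← e2]; field_simp; ring
  have hp : v (x₃⁻¹ * x₄⁻¹) < 1 := by
    rw [hzw, map_div₀, hVv, div_one, map_pow, pow_two]
    exact lt_of_le_of_lt (mul_le_of_le_one_right' hts.le) hts
  have hsm : v (x₃⁻¹ + x₄⁻¹) < 1 := by
    rw [hzpw, map_div₀, hVv, div_one]; exact hUv
  exact one_lt_val_of_inv_lt_one h30 (val_lt_one_of_sum_prod hsm hp)

/-- Tangent case of the subgroup property. -/
lemma one_lt_val_of_dbl (hW : IntegralCoeffs W v) {x x' : K} (hx : 1 < v x)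
    (hdbl : x' * Fermat.Agent.S05.XId.dblDen W x = Fermat.Agent.S05.XId.dblNum W x) :
    1 < v x' := by
  obtain ⟨hb2, hb4, hb6, hb8⟩ := v_b hW
  have h0 := ne_zero_of_one_lt_val hx
  have hsv : v x⁻¹ < 1 := val_inv_lt_one hx
  obtain ⟨s, hs0, rfl⟩ : ∃ s : K, s ≠ 0 ∧ x = s⁻¹ := ⟨x⁻¹, inv_ne_zero h0, (inv_inv _).symm⟩
  rw [inv_inv] at hsv
  have h2 : v (2 : K) ≤ 1 := by
    have := val_natCast_le_one (v := v) 2
    simpa using this
  have h4 : v (4 : K) ≤ 1 := by
    have := val_natCast_le_one (v := v) 4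
    simpa using this
  have hsn : ∀ n : ℕ, 0 < n → v (s ^ n) < 1 := by
    intro n hn
    rw [map_pow]
    exact pow_lt_one₀ zero_le hsv hn.ne'
  set V : K := 1 - W.b₄ * s ^ 2 - 2 * W.b₆ * s ^ 3 - W.b₈ * s ^ 4 with hV
  set U : K := 4 * s + W.b₂ * s ^ 2 + 2 * W.b₄ * s ^ 3 + W.b₆ * s ^ 4 with hU
  have hUv : v U < 1 := by
    refine val_add_lt_one (val_add_lt_one (val_add_lt_one ?_ ?_) ?_) ?_
    · exact val_mul_lt_one_right h4 hsv
    · exact val_mul_lt_one_right hb2 (hsn 2 (by norm_num))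
    · exact val_mul_lt_one_right (val_mul_le_one h2 hb4) (hsn 3 (by norm_num))
    · exact val_mul_lt_one_right hb6 (hsn 4 (by norm_num))
  have hVv : v V = 1 := by
    have hrest : v (V - 1) < 1 := by
      have : V - 1 = -(W.b₄ * s ^ 2) + -(2 * W.b₆ * s ^ 3) + -(W.b₈ * s ^ 4) := by
        simp only [hV]; ring
      rw [this]
      refine val_add_lt_one (val_add_lt_one ?_ ?_) ?_
      · rw [Valuation.map_neg]; exact val_mul_lt_one_right hb4 (hsn 2 (by norm_num))
      · rw [Valuation.map_neg]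
        exact val_mul_lt_one_right (val_mul_le_one h2 hb6) (hsn 3 (by norm_num))
      · rw [Valuation.map_neg]; exact val_mul_lt_one_right hb8 (hsn 4 (by norm_num))
    have : V = 1 + (V - 1) := by ring
    rw [this, v.map_add_eq_of_lt_left (by rwa [map_one]), map_one]
  have hV0 : V ≠ 0 := by
    intro h0; rw [h0, map_zero] at hVv; exact zero_ne_one hVv
  have e : x' * U = V := by
    have e2 : Fermat.Agent.S05.XId.dblDen W s⁻¹ * s ^ 4 = U := by
      simp only [Fermat.Agent.S05.XId.dblDen, hU]; field_simp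
    have e3 : Fermat.Agent.S05.XId.dblNum W s⁻¹ * s ^ 4 = V := by
      simp only [Fermat.Agent.S05.XId.dblNum, hV]; field_simp
    rw [← e2, ← e3, ← hdbl]; ring
  have hx'0 : x' ≠ 0 := by
    intro h0; rw [h0, zero_mul] at e; exact hV0 e.symm
  have hU0 : U ≠ 0 := by
    intro h0; rw [h0, mul_zero] at e; exact hV0 e.symm
  apply one_lt_val_of_inv_lt_one hx'0
  have : x'⁻¹ = U / V := by
    rw [eq_div_iff hV0, ← e]; field_simp
  rw [this, map_div₀, hVv, div_one]
  exact hUv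

/-- **`E₁` is closed under addition** (any valuation, any characteristic). -/
theorem inKer_add (hW : IntegralCoeffs W v) {P Q : W.Point} (hP : InKer W v P)
    (hQ : InKer W v Q) : InKer W v (P + Q) := by
  rcases P with _ | ⟨x₁, y₁, h₁⟩
  · have : (Point.zero : W.Point) + Q = Q := zero_add Q
    rw [this]; exact hQ
  rcases Q with _ | ⟨x₂, y₂, h₂⟩
  · have : Point.some x₁ y₁ h₁ + (Point.zero : W.Point) = Point.some x₁ y₁ h₁ := add_zero _
    rw [this]; exact hP
  have hx₁ : 1 < v x₁ := hP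
  have hx₂ : 1 < v x₂ := hQ
  by_cases hxx : x₁ = x₂
  · by_cases hyy : y₁ = W.negY x₂ y₂
    · rw [Point.add_of_Y_eq hxx hyy]; exact inKer_zero
    · have hy12 : y₁ = y₂ := Affine.Y_eq_of_Y_ne h₁.1 h₂.1 hxx hyy
      subst hxx; subst hy12
      obtain ⟨x', y', h', hadd, hdbl, -⟩ := XId.add_self_some h₁ hyy
      rw [hadd]
      exact one_lt_val_of_dbl hW hx₁ hdbl
  · obtain ⟨x₃, y₃, x₄, y₄, h₃, h₄, hadd, -, hsum, hprod⟩ := XId.add_sub_some h₁ h₂ hxx
    rw [hadd]
    exact one_lt_val_of_sum_prod hW hx₁ hx₂ hsum hprod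

theorem inKer_sub (hW : IntegralCoeffs W v) {P Q : W.Point} (hP : InKer W v P)
    (hQ : InKer W v Q) : InKer W v (P - Q) := by
  rw [sub_eq_add_neg]; exact inKer_add hW hP (inKer_neg hQ)

end Fermat.Agent.Lib.Red.H290
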