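import Fermat.Agent.Lib.Red.H290.RedSlope
import Fermat.Agent.Lib.Red.H290.RedKer

/-!
# The reduction homomorphism for good reduction (row S52, piece GR = A1b; part 5)

`A : ValuationSubring K`, `φ : A →+* κ` with kernel the maximal ideal, `W` a Weierstrass curve
over `K` with coefficients in `A` reducing to `Wκ` with `Wκ.Δ ≠ 0`.  Then

* `red : W.Point → Wκ.Point`, `(x, y) ↦ (φ x, φ y)` on integral points, `↦ 0` on `E₁`;
* `red_add` : `red` is additive; `redHom` is the bundled `AddMonoidHom`;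
* `red_eq_zero_iff` : the kernel of `red` is `E₁` (`InKer`);
* `red_injOn_torsion` : `red` is injective on points killed by an integer `n` that is a unit
  of `A`.
-/

set_option autoImplicit false

namespace Fermat.Agent.Lib.Red.H290

open WeierstrassCurve WeierstrassCurve.Affine
open Fermat.Agent.S05.SameRed (IntegralCoeffs InKer inKer_zero inKer_some
  inKer_sub_of_same_reduction)

variable {K : Type*} [Field K] [DecidableEq K] {κ : Type*} [Field κ] [DecidableEq κ]
variable {A : ValuationSubring K} {φ : A →+* κ} {W : Affine K} {Wκ : Affine κ}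

omit [DecidableEq κ] in
/-- With good reduction, the reduction of an integral point is a nonsingular point. -/
lemma rd_nonsingular (h : IsRedOf A φ W Wκ) (hΔ : Wκ.Δ ≠ 0) {x y : K} (hx : x ∈ A)
    (hxy : W.Equation x y) : Wκ.Nonsingular (rd A φ x) (rd A φ y) :=
  (Affine.equation_iff_nonsingular_of_Δ_ne_zero hΔ).mp
    (rd_equation h hx (y_mem_of_x_mem h hxy hx) hxy)

/-- The reduction map on points. -/
noncomputable def red (h : IsRedOf A φ W Wκ) (hΔ : Wκ.Δ ≠ 0) : W.Point → Wκ.Point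
  | .zero => 0
  | .some x y hxy =>
    open Classical in
    if hx : x ∈ A then Point.some (rd A φ x) (rd A φ y) (rd_nonsingular h hΔ hx hxy.1) else 0

section

variable (h : IsRedOf A φ W Wκ) (hΔ : Wκ.Δ ≠ 0)

omit [DecidableEq κ] in
@[simp] lemma red_zero : red h hΔ 0 = 0 := rfl

omit [DecidableEq κ] in
lemma red_some_of_mem {x y : K} (hxy : W.Nonsingular x y) (hx : x ∈ A) :
    red h hΔ (Point.some x y hxy) =
      Point.some (rd A φ x) (rd A φ y) (rd_nonsingular h hΔ hx hxy.1) := by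
  simp only [red, hx, dite_true]

omit [DecidableEq κ] in
lemma red_some_of_not_mem {x y : K} (hxy : W.Nonsingular x y) (hx : x ∉ A) :
    red h hΔ (Point.some x y hxy) = 0 := by
  simp only [red, hx, dite_false]

omit [DecidableEq K] [DecidableEq κ] in
lemma not_mem_iff_one_lt {x : K} : x ∉ A ↔ 1 < A.valuation x := by
  rw [← A.valuation_le_one_iff, not_le]

omit [DecidableEq κ] in
/-- The kernel of reduction is `E₁`. -/
theorem red_eq_zero_iff (P : W.Point) : red h hΔ P = 0 ↔ InKer W A.valuation P := by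
  rcases P with _ | ⟨x, y, hxy⟩
  · exact ⟨fun _ => trivial, fun _ => rfl⟩
  · by_cases hx : x ∈ A
    · rw [red_some_of_mem h hΔ hxy hx]
      constructor
      · intro h0; exact absurd h0 (Point.some_ne_zero _)
      · intro hk
        exact absurd hx (not_mem_iff_one_lt.mpr hk)
    · rw [red_some_of_not_mem h hΔ hxy hx]
      exact ⟨fun _ => not_mem_iff_one_lt.mp hx, fun _ => rfl⟩

theorem red_neg (P : W.Point) : red h hΔ (-P) = -red h hΔ P := by
  rcases P with _ | ⟨x, y, hxy⟩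
  · rfl
  · rw [Point.neg_some]
    by_cases hx : x ∈ A
    · rw [red_some_of_mem h hΔ _ hx, red_some_of_mem h hΔ hxy hx, Point.neg_some]
      have hy := y_mem_of_x_mem h hxy.1 hx
      congr 1
      exact rd_negY h hx hy
    · rw [red_some_of_not_mem h hΔ _ hx, red_some_of_not_mem h hΔ hxy hx, neg_zero]

end

section add

variable (h : IsRedOf A φ W Wκ) (hφ : KerMax A φ) (hΔ : Wκ.Δ ≠ 0)
include hφ

/-- Additivity on integral points. -/
theorem red_add_of_mem {x₁ y₁ x₂ y₂ : K} (h₁ : W.Nonsingular x₁ y₁) (h₂ : W.Nonsingular x₂ y₂)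
    (hx₁ : x₁ ∈ A) (hx₂ : x₂ ∈ A) :
    red h hΔ (Point.some x₁ y₁ h₁ + Point.some x₂ y₂ h₂) =
      red h hΔ (Point.some x₁ y₁ h₁) + red h hΔ (Point.some x₂ y₂ h₂) := by
  have hy₁ : y₁ ∈ A := y_mem_of_x_mem h h₁.1 hx₁
  have hy₂ : y₂ ∈ A := y_mem_of_x_mem h h₂.1 hx₂
  rw [red_some_of_mem h hΔ h₁ hx₁, red_some_of_mem h hΔ h₂ hx₂]
  by_cases hb : rd A φ x₁ = rd A φ x₂ ∧ rd A φ y₁ = Wκ.negY (rd A φ x₂) (rd A φ y₂)
  · -- the reductions are opposite: the sum lies in `E₁`
    rw [Point.add_of_Y_eq hb.1 hb.2, red_eq_zero_iff]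
    have h₂' : W.Nonsingular x₂ (W.negY x₂ y₂) := (Affine.nonsingular_neg ..).mpr h₂
    have hn₂ : W.negY x₂ y₂ ∈ A := negY_mem h hx₂ hy₂
    have hx : A.valuation (x₁ - x₂) < 1 := (rd_eq_iff hφ hx₁ hx₂).mp hb.1
    have hy : A.valuation (y₁ - W.negY x₂ y₂) < 1 := by
      rw [← rd_eq_iff hφ hy₁ hn₂, rd_negY h hx₂ hy₂]; exact hb.2
    have hns : A.valuation (W.a₁ * y₁ - (3 * x₁ ^ 2 + 2 * W.a₂ * x₁ + W.a₄)) = 1 ∨
        A.valuation (2 * y₁ + W.a₁ * x₁ + W.a₃) = 1 := by
      have hN := rd_nonsingular h hΔ hx₁ h₁.1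
      rw [Affine.nonsingular_iff'] at hN
      rcases hN.2 with hN | hN
      · left
        obtain ⟨hgA, hgrd⟩ := rd_slopeNum h hx₁ hy₁
        have hm : W.a₁ * y₁ - (3 * x₁ ^ 2 + 2 * W.a₂ * x₁ + W.a₄) ∈ A := by
          have : W.a₁ * y₁ - (3 * x₁ ^ 2 + 2 * W.a₂ * x₁ + W.a₄) =
              -(3 * x₁ ^ 2 + 2 * W.a₂ * x₁ + W.a₄ - W.a₁ * y₁) := by ring
          rw [this]; exact A.neg_mem _ hgA
        refine (rd_ne_zero_iff hφ hm).mp ?_
        have : W.a₁ * y₁ - (3 * x₁ ^ 2 + 2 * W.a₂ * x₁ + W.a₄) =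
            -(3 * x₁ ^ 2 + 2 * W.a₂ * x₁ + W.a₄ - W.a₁ * y₁) := by ring
        rw [this, rd_neg hgA, hgrd]
        intro h0
        apply hN
        linear_combination h0
      · right
        have hm : 2 * y₁ + W.a₁ * x₁ + W.a₃ ∈ A := by
          have : 2 * y₁ + W.a₁ * x₁ + W.a₃ = y₁ - W.negY x₁ y₁ := by
            simp only [Affine.negY]; ring
          rw [this]; exact A.sub_mem hy₁ (negY_mem h hx₁ hy₁)
        refine (rd_ne_zero_iff hφ hm).mp ?_
        have : 2 * y₁ + W.a₁ * x₁ + W.a₃ = y₁ - W.negY x₁ y₁ := by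
          simp only [Affine.negY]; ring
        rw [this, rd_sub hy₁ (negY_mem h hx₁ hy₁), rd_negY h hx₁ hy₁]
        intro h0
        apply hN
        simp only [Affine.negY] at h0
        linear_combination h0
    have key := inKer_sub_of_same_reduction h.integralCoeffs h₁ h₂' (val_le_of_mem hx₁)
      (val_le_of_mem hy₁) (val_le_of_mem hx₂) (val_le_of_mem hn₂) hx hy hns
    have e : Point.some x₁ y₁ h₁ - Point.some x₂ (W.negY x₂ y₂) h₂' =
        Point.some x₁ y₁ h₁ + Point.some x₂ y₂ h₂ := by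
      rw [sub_eq_add_neg, Point.neg_some]
      congr 2
      exact Affine.negY_negY ..
    rwa [e] at key
  · -- generic case: the slope reduces
    have hK : ¬(x₁ = x₂ ∧ y₁ = W.negY x₂ y₂) := by
      rintro ⟨rfl, rfl⟩
      exact hb ⟨rfl, rd_negY h hx₂ hy₂⟩
    obtain ⟨hℓA, hℓrd⟩ := slope_mem_and_rd h hφ hx₁ hx₂ h₁.1 h₂.1 hb
    rw [Point.add_some hK, Point.add_some hb,
      red_some_of_mem h hΔ _ (addX_mem h hx₁ hx₂ hℓA)]
    congr 1
    · rw [rd_addX h hx₁ hx₂ hℓA, hℓrd]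
    · rw [rd_addY h hx₁ hx₂ hy₁ hℓA, hℓrd]

/-- Additivity when the first point lies in `E₁` and the second is integral. -/
theorem red_add_of_inKer_of_mem {P : W.Point} (hP : InKer W A.valuation P) {x₂ y₂ : K}
    (h₂ : W.Nonsingular x₂ y₂) (hx₂ : x₂ ∈ A) :
    red h hΔ (P + Point.some x₂ y₂ h₂) = red h hΔ (Point.some x₂ y₂ h₂) := by
  have hQ : ¬ InKer W A.valuation (Point.some x₂ y₂ h₂) := fun hk =>
    absurd hx₂ (not_mem_iff_one_lt.mpr hk)
  -- `R = P + Q` is not in `E₁`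
  have hR : ¬ InKer W A.valuation (P + Point.some x₂ y₂ h₂) := by
    intro hk
    apply hQ
    have := inKer_sub h.integralCoeffs hk hP
    rwa [add_sub_cancel_left] at this
  rcases hPQ : P + Point.some x₂ y₂ h₂ with _ | ⟨x₃, y₃, h₃⟩
  · rw [hPQ] at hR; exact absurd trivial hR
  · rw [hPQ] at hR
    have hx₃ : x₃ ∈ A := by
      by_contra hx; exact hR (not_mem_iff_one_lt.mp hx)
    -- `red (R - Q) = red R - red Q` and `R - Q = P ∈ E₁`
    have h₂' : W.Nonsingular x₂ (W.negY x₂ y₂) := (Affine.nonsingular_neg ..).mpr h₂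
    have hadd := red_add_of_mem h hφ hΔ h₃ h₂' hx₃ hx₂
    have e : Point.some x₃ y₃ h₃ + Point.some x₂ (W.negY x₂ y₂) h₂' = P := by
      rw [← hPQ, ← Point.neg_some h₂, add_neg_cancel_right]
    rw [e, (red_eq_zero_iff h hΔ P).mpr hP, ← Point.neg_some h₂, red_neg] at hadd
    exact (add_neg_eq_zero.mp hadd.symm)

/-- **The reduction map is additive.** -/
theorem red_add (P Q : W.Point) : red h hΔ (P + Q) = red h hΔ P + red h hΔ Q := by
  rcases hP : P with _ | ⟨x₁, y₁, h₁⟩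
  · have : (Point.zero : W.Point) + Q = Q := zero_add Q
    rw [this]
    exact (zero_add _).symm
  rcases hQ : Q with _ | ⟨x₂, y₂, h₂⟩
  · have : Point.some x₁ y₁ h₁ + (Point.zero : W.Point) = Point.some x₁ y₁ h₁ := add_zero _
    rw [this]
    exact (add_zero _).symm
  by_cases hx₁ : x₁ ∈ A
  · by_cases hx₂ : x₂ ∈ A
    · exact red_add_of_mem h hφ hΔ h₁ h₂ hx₁ hx₂
    · have hk : InKer W A.valuation (Point.some x₂ y₂ h₂) := not_mem_iff_one_lt.mp hx₂
      rw [add_comm, red_add_of_inKer_of_mem h hφ hΔ hk h₁ hx₁,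
        (red_eq_zero_iff h hΔ _).mpr hk, add_zero]
  · have hk₁ : InKer W A.valuation (Point.some x₁ y₁ h₁) := not_mem_iff_one_lt.mp hx₁
    by_cases hx₂ : x₂ ∈ A
    · rw [red_add_of_inKer_of_mem h hφ hΔ hk₁ h₂ hx₂,
        (red_eq_zero_iff h hΔ _).mpr hk₁, zero_add]
    · have hk₂ : InKer W A.valuation (Point.some x₂ y₂ h₂) := not_mem_iff_one_lt.mp hx₂
      rw [(red_eq_zero_iff h hΔ _).mpr hk₁, (red_eq_zero_iff h hΔ _).mpr hk₂,
        (red_eq_zero_iff h hΔ _).mpr (inKer_add h.integralCoeffs hk₁ hk₂), add_zero]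

/-- The reduction homomorphism. -/
noncomputable def redHom : W.Point →+ Wκ.Point where
  toFun := red h hΔ
  map_zero' := rfl
  map_add' := red_add h hφ hΔ

@[simp] lemma redHom_apply (P : W.Point) : redHom h hφ hΔ P = red h hΔ P := rfl

omit [DecidableEq κ] hφ in
/-- The reduction map is injective on `n`-torsion for `n` a unit of `A`. -/
theorem eq_zero_of_red_eq_zero_of_nsmul (n : ℕ) (hn : A.valuation (n : K) = 1) (P : W.Point)
    (hP : n • P = 0) (hr : red h hΔ P = 0) : P = 0 :=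
  Fermat.Agent.S05.C1b.eq_zero_of_inKer_of_nsmul_eq_zero h.integralCoeffs n hn P
    ((red_eq_zero_iff h hΔ P).mp hr) hP

theorem eq_of_red_eq_of_nsmul (n : ℕ) (hn : A.valuation (n : K) = 1) (P Q : W.Point)
    (hP : n • P = 0) (hQ : n • Q = 0) (hr : red h hΔ P = red h hΔ Q) : P = Q := by
  have h1 : red h hΔ (P - Q) = 0 := by
    have := (redHom h hφ hΔ).map_sub P Q
    simp only [redHom_apply] at this
    rw [this, hr, sub_self]
  have h2 : n • (P - Q) = 0 := by rw [smul_sub, hP, hQ, sub_zero]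
  exact sub_eq_zero.mp (eq_zero_of_red_eq_zero_of_nsmul h hΔ n hn _ h2 h1)

end add

end Fermat.Agent.Lib.Red.H290
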