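import Fermat.Agent.Lib.Red.Statement
import Fermat.Agent.Lib.Red.H290.RedHom

/-!
# Piece GR of row S52: `GoodReduction` (helper290)

`Fermat.Agent.Lib.Red.H290.goodReduction : GoodReduction` — the reduction homomorphism
`W₀(K) → W₀(κ_V)` for a Weierstrass curve over a valuation subring `V` with unit discriminant —
as an instance of the general `redHom` of `RedHom.lean`.
-/

set_option autoImplicit false

open WeierstrassCurve WeierstrassCurve.Affine WeierstrassCurve.Affine.Point

namespace Fermat.Agent.Lib.Red.H290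

universe u

variable {K : Type u} [Field K] (V : ValuationSubring K)

/-- The structure map `V → κ_V` has kernel the maximal ideal. -/
lemma kerMax_algebraMap : KerMax V (algebraMap V (IsLocalRing.ResidueField V)) :=
  kerMax_residue V

/-- `W₀⁄κ_V` is the reduction of `W₀⁄K`. -/
lemma isRedOf_baseChange (W₀ : WeierstrassCurve V) :
    IsRedOf V (algebraMap V (IsLocalRing.ResidueField V)) (W₀⁄K)
      (W₀⁄(IsLocalRing.ResidueField V)) :=
  isRedOf_map W₀

lemma Δ_baseChange_ne_zero (W₀ : WeierstrassCurve V) (hΔ : IsUnit W₀.Δ) :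
    (W₀⁄(IsLocalRing.ResidueField V)).Δ ≠ 0 := by
  have : (W₀⁄(IsLocalRing.ResidueField V)).Δ =
      algebraMap V (IsLocalRing.ResidueField V) W₀.Δ := WeierstrassCurve.map_Δ ..
  rw [this]
  exact (hΔ.map (algebraMap V (IsLocalRing.ResidueField V))).ne_zero

/-- **GR.** -/
theorem goodReduction : GoodReduction.{u} := by
  intro K _ _ V _ W₀ hΔ
  have h := isRedOf_baseChange V W₀
  have hφ := kerMax_algebraMap V
  have hΔ' := Δ_baseChange_ne_zero V W₀ hΔ
  refine ⟨redHom h hφ hΔ', ?_, ?_⟩
  · intro x y hxy hx hy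
    refine ⟨?_, ?_⟩
    · have := rd_nonsingular h hΔ' hx hxy.1
      rwa [rd_of_mem hx, rd_of_mem hy] at this
    · rw [redHom_apply, red_some_of_mem h hΔ' hxy hx]
      congr 1
      · exact rd_of_mem hx
      · exact rd_of_mem hy
  · intro x y hxy hx
    rw [redHom_apply, red_some_of_not_mem h hΔ' hxy hx]

end Fermat.Agent.Lib.Red.H290
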