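import Fermat.Agent.Lib.Red.H290.RedElt
import Fermat.Agent.S05.SameRed
import Fermat.Agent.S05.GoodRed

/-!
# Reduction of a Weierstrass curve with integral coefficients (S52 piece A1b, part 2)

`IsRedOf A φ W Wκ`: the coefficients of `W : Affine K` lie in `A` and reduce (under
`rd A φ`) to those of `Wκ : Affine κ`.  We show that the polynomial expressions of the group law
(`negY`, `addX`, `addY`, the equation, the nonsingularity condition) commute with reduction.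
-/

set_option autoImplicit false

namespace Fermat.Agent.Lib.Red.H290

open WeierstrassCurve WeierstrassCurve.Affine
open Fermat.Agent.S05.SameRed (IntegralCoeffs InKer)

variable {K : Type*} [Field K] {κ : Type*} [Field κ]

/-- `Wκ` is the reduction of `W` along `φ : A →+* κ`. -/
structure IsRedOf (A : ValuationSubring K) (φ : A →+* κ) (W : Affine K) (Wκ : Affine κ) :
    Prop where
  m₁ : W.a₁ ∈ A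
  m₂ : W.a₂ ∈ A
  m₃ : W.a₃ ∈ A
  m₄ : W.a₄ ∈ A
  m₆ : W.a₆ ∈ A
  a₁ : rd A φ W.a₁ = Wκ.a₁
  a₂ : rd A φ W.a₂ = Wκ.a₂
  a₃ : rd A φ W.a₃ = Wκ.a₃
  a₄ : rd A φ W.a₄ = Wκ.a₄
  a₆ : rd A φ W.a₆ = Wκ.a₆

variable {A : ValuationSubring K} {φ : A →+* κ} {W : Affine K} {Wκ : Affine κ}

lemma IsRedOf.integralCoeffs (h : IsRedOf A φ W Wκ) : IntegralCoeffs W A.valuation :=
  ⟨val_le_of_mem h.m₁, val_le_of_mem h.m₂, val_le_of_mem h.m₃, val_le_of_mem h.m₄,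
    val_le_of_mem h.m₆⟩

/-- The reduction of a curve over `A` itself. -/
lemma isRedOf_map (W₀ : WeierstrassCurve A) :
    IsRedOf A φ (W₀.map (algebraMap A K)).toAffine (W₀.map φ).toAffine where
  m₁ := W₀.a₁.2
  m₂ := W₀.a₂.2
  m₃ := W₀.a₃.2
  m₄ := W₀.a₄.2
  m₆ := W₀.a₆.2
  a₁ := rd_coe W₀.a₁
  a₂ := rd_coe W₀.a₂
  a₃ := rd_coe W₀.a₃
  a₄ := rd_coe W₀.a₄
  a₆ := rd_coe W₀.a₆

/-- Lifting data: the coefficients as elements of `A`. -/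
lemma IsRedOf.exists_lift (h : IsRedOf A φ W Wκ) :
    ∃ c₁ c₂ c₃ c₄ c₆ : A, (c₁ : K) = W.a₁ ∧ (c₂ : K) = W.a₂ ∧ (c₃ : K) = W.a₃ ∧
      (c₄ : K) = W.a₄ ∧ (c₆ : K) = W.a₆ ∧ φ c₁ = Wκ.a₁ ∧ φ c₂ = Wκ.a₂ ∧ φ c₃ = Wκ.a₃ ∧
      φ c₄ = Wκ.a₄ ∧ φ c₆ = Wκ.a₆ :=
  ⟨⟨_, h.m₁⟩, ⟨_, h.m₂⟩, ⟨_, h.m₃⟩, ⟨_, h.m₄⟩, ⟨_, h.m₆⟩, rfl, rfl, rfl, rfl, rfl,
    by rw [← h.a₁, rd_of_mem h.m₁], by rw [← h.a₂, rd_of_mem h.m₂],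
    by rw [← h.a₃, rd_of_mem h.m₃], by rw [← h.a₄, rd_of_mem h.m₄],
    by rw [← h.a₆, rd_of_mem h.m₆]⟩

lemma coe_two : (((2 : A) : K)) = 2 := rfl
lemma coe_three : (((3 : A) : K)) = 3 := rfl

section poly

variable (h : IsRedOf A φ W Wκ)
include h

lemma negY_mem {x y : K} (hx : x ∈ A) (hy : y ∈ A) : W.negY x y ∈ A := by
  simp only [Affine.negY]
  exact A.sub_mem (A.sub_mem (A.neg_mem _ hy) (A.mul_mem _ _ h.m₁ hx)) h.m₃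

lemma rd_negY {x y : K} (hx : x ∈ A) (hy : y ∈ A) :
    rd A φ (W.negY x y) = Wκ.negY (rd A φ x) (rd A φ y) := by
  obtain ⟨c₁, c₂, c₃, c₄, c₆, e₁, e₂, e₃, e₄, e₆, f₁, f₂, f₃, f₄, f₆⟩ := h.exists_lift
  lift x to A using hx
  lift y to A using hy
  simp only [Affine.negY, ← e₁, ← e₃, ← f₁, ← f₃]
  have : (-(y : K) - c₁ * x - c₃) = ((-y - c₁ * x - c₃ : A) : K) := by push_cast; rfl
  rw [this, rd_coe, rd_coe, rd_coe]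
  simp only [map_sub, map_neg, map_mul]

lemma addX_mem {x₁ x₂ ℓ : K} (hx₁ : x₁ ∈ A) (hx₂ : x₂ ∈ A) (hℓ : ℓ ∈ A) :
    W.addX x₁ x₂ ℓ ∈ A := by
  simp only [Affine.addX]
  exact A.sub_mem (A.sub_mem (A.sub_mem (A.add_mem _ _ (pow_mem hℓ 2) (A.mul_mem _ _ h.m₁ hℓ))
    h.m₂) hx₁) hx₂

lemma rd_addX {x₁ x₂ ℓ : K} (hx₁ : x₁ ∈ A) (hx₂ : x₂ ∈ A) (hℓ : ℓ ∈ A) :
    rd A φ (W.addX x₁ x₂ ℓ) = Wκ.addX (rd A φ x₁) (rd A φ x₂) (rd A φ ℓ) := by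
  obtain ⟨c₁, c₂, c₃, c₄, c₆, e₁, e₂, e₃, e₄, e₆, f₁, f₂, f₃, f₄, f₆⟩ := h.exists_lift
  lift x₁ to A using hx₁
  lift x₂ to A using hx₂
  lift ℓ to A using hℓ
  simp only [Affine.addX, ← e₁, ← e₂, ← f₁, ← f₂]
  have : ((ℓ : K) ^ 2 + c₁ * ℓ - c₂ - x₁ - x₂) = ((ℓ ^ 2 + c₁ * ℓ - c₂ - x₁ - x₂ : A) : K) := by
    push_cast; rfl
  rw [this, rd_coe, rd_coe, rd_coe, rd_coe]
  simp only [map_sub, map_add, map_mul, map_pow]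

lemma negAddY_mem {x₁ x₂ y₁ ℓ : K} (hx₁ : x₁ ∈ A) (hx₂ : x₂ ∈ A) (hy₁ : y₁ ∈ A) (hℓ : ℓ ∈ A) :
    W.negAddY x₁ x₂ y₁ ℓ ∈ A := by
  simp only [Affine.negAddY]
  exact A.add_mem _ _ (A.mul_mem _ _ hℓ (A.sub_mem (addX_mem h hx₁ hx₂ hℓ) hx₁)) hy₁

lemma rd_negAddY {x₁ x₂ y₁ ℓ : K} (hx₁ : x₁ ∈ A) (hx₂ : x₂ ∈ A) (hy₁ : y₁ ∈ A) (hℓ : ℓ ∈ A) :
    rd A φ (W.negAddY x₁ x₂ y₁ ℓ) =
      Wκ.negAddY (rd A φ x₁) (rd A φ x₂) (rd A φ y₁) (rd A φ ℓ) := by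
  simp only [Affine.negAddY]
  have hX := addX_mem h hx₁ hx₂ hℓ
  rw [rd_add (A.mul_mem _ _ hℓ (A.sub_mem hX hx₁)) hy₁, rd_mul hℓ (A.sub_mem hX hx₁),
    rd_sub hX hx₁, rd_addX h hx₁ hx₂ hℓ]

lemma addY_mem {x₁ x₂ y₁ ℓ : K} (hx₁ : x₁ ∈ A) (hx₂ : x₂ ∈ A) (hy₁ : y₁ ∈ A) (hℓ : ℓ ∈ A) :
    W.addY x₁ x₂ y₁ ℓ ∈ A := by
  simp only [Affine.addY]
  exact negY_mem h (addX_mem h hx₁ hx₂ hℓ) (negAddY_mem h hx₁ hx₂ hy₁ hℓ)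

lemma rd_addY {x₁ x₂ y₁ ℓ : K} (hx₁ : x₁ ∈ A) (hx₂ : x₂ ∈ A) (hy₁ : y₁ ∈ A) (hℓ : ℓ ∈ A) :
    rd A φ (W.addY x₁ x₂ y₁ ℓ) =
      Wκ.addY (rd A φ x₁) (rd A φ x₂) (rd A φ y₁) (rd A φ ℓ) := by
  simp only [Affine.addY]
  rw [rd_negY h (addX_mem h hx₁ hx₂ hℓ) (negAddY_mem h hx₁ hx₂ hy₁ hℓ),
    rd_addX h hx₁ hx₂ hℓ, rd_negAddY h hx₁ hx₂ hy₁ hℓ]

/-- The equation reduces. -/
lemma rd_equation {x y : K} (hx : x ∈ A) (hy : y ∈ A) (hxy : W.Equation x y) :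
    Wκ.Equation (rd A φ x) (rd A φ y) := by
  obtain ⟨c₁, c₂, c₃, c₄, c₆, e₁, e₂, e₃, e₄, e₆, f₁, f₂, f₃, f₄, f₆⟩ := h.exists_lift
  lift x to A using hx
  lift y to A using hy
  rw [Affine.equation_iff] at hxy ⊢
  rw [← e₁, ← e₂, ← e₃, ← e₄, ← e₆] at hxy
  have hA : y ^ 2 + c₁ * x * y + c₃ * y = x ^ 3 + c₂ * x ^ 2 + c₄ * x + c₆ := by
    apply Subtype.ext
    push_cast
    exact hxy
  have := congrArg φ hA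
  simp only [map_add, map_mul, map_pow, f₁, f₂, f₃, f₄, f₆] at this
  rw [rd_coe, rd_coe]
  exact this

/-- The numerator of the tangent slope. -/
lemma rd_slopeNum {x y : K} (hx : x ∈ A) (hy : y ∈ A) :
    3 * x ^ 2 + 2 * W.a₂ * x + W.a₄ - W.a₁ * y ∈ A ∧
    rd A φ (3 * x ^ 2 + 2 * W.a₂ * x + W.a₄ - W.a₁ * y) =
      3 * rd A φ x ^ 2 + 2 * Wκ.a₂ * rd A φ x + Wκ.a₄ - Wκ.a₁ * rd A φ y := by
  obtain ⟨c₁, c₂, c₃, c₄, c₆, e₁, e₂, e₃, e₄, e₆, f₁, f₂, f₃, f₄, f₆⟩ := h.exists_lift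
  lift x to A using hx
  lift y to A using hy
  simp only [← e₁, ← e₂, ← e₄, ← f₁, ← f₂, ← f₄]
  have : (3 * (x : K) ^ 2 + 2 * c₂ * x + c₄ - c₁ * y) =
      ((3 * x ^ 2 + 2 * c₂ * x + c₄ - c₁ * y : A) : K) := by
    push_cast; rw [coe_two, coe_three]
  rw [this, rd_coe, rd_coe, rd_coe]
  refine ⟨Subtype.mem _, ?_⟩
  simp only [map_sub, map_add, map_mul, map_pow, map_ofNat]

end poly

end Fermat.Agent.Lib.Red.H290
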