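import Mathlib.RingTheory.Valuation.ValuationSubring
import Mathlib.Tactic

/-!
# Reduction of elements of a valuation ring (S52 piece A1b, part 1)

`A : ValuationSubring K`, `φ : A →+* κ` a ring homomorphism to a field whose kernel is the
maximal ideal of `A` (stated as `hφ : ∀ a : A, φ a = 0 ↔ A.valuation a < 1`).

`rd A φ : K → κ` is the total function extending `φ` by `0` outside `A`.  It is additive and
multiplicative on `A`, kills exactly the non-units among the elements of `A`, and commutes with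
division by units.
-/

set_option autoImplicit false

namespace Fermat.Agent.Lib.Red.H290

variable {K : Type*} [Field K] {κ : Type*} [Field κ]

/-- The reduction `K → κ` extending `φ : A →+* κ` by zero outside `A`. -/
noncomputable def rd (A : ValuationSubring K) (φ : A →+* κ) (x : K) : κ :=
  open Classical in if h : x ∈ A then φ ⟨x, h⟩ else 0

section

variable {A : ValuationSubring K} {φ : A →+* κ}

lemma rd_of_mem {x : K} (h : x ∈ A) : rd A φ x = φ ⟨x, h⟩ := by
  simp only [rd, h, dite_true]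

lemma rd_coe (a : A) : rd A φ (a : K) = φ a := by
  rw [rd_of_mem a.2]

lemma rd_of_not_mem {x : K} (h : x ∉ A) : rd A φ x = 0 := by
  simp only [rd, h, dite_false]

@[simp] lemma rd_zero : rd A φ 0 = 0 := by
  rw [rd_of_mem A.zero_mem]; exact map_zero φ

@[simp] lemma rd_one : rd A φ 1 = 1 := by
  rw [rd_of_mem A.one_mem]; exact map_one φ

lemma rd_add {x y : K} (hx : x ∈ A) (hy : y ∈ A) : rd A φ (x + y) = rd A φ x + rd A φ y := by
  rw [rd_of_mem hx, rd_of_mem hy, rd_of_mem (A.add_mem _ _ hx hy), ← map_add]; rfl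

lemma rd_mul {x y : K} (hx : x ∈ A) (hy : y ∈ A) : rd A φ (x * y) = rd A φ x * rd A φ y := by
  rw [rd_of_mem hx, rd_of_mem hy, rd_of_mem (A.mul_mem _ _ hx hy), ← map_mul]; rfl

lemma rd_neg {x : K} (hx : x ∈ A) : rd A φ (-x) = - rd A φ x := by
  rw [rd_of_mem hx, rd_of_mem (A.neg_mem _ hx), ← map_neg]; rfl

lemma rd_sub {x y : K} (hx : x ∈ A) (hy : y ∈ A) : rd A φ (x - y) = rd A φ x - rd A φ y := by
  rw [rd_of_mem hx, rd_of_mem hy, rd_of_mem (A.sub_mem hx hy), ← map_sub]; rfl

lemma rd_pow {x : K} (hx : x ∈ A) (n : ℕ) : rd A φ (x ^ n) = rd A φ x ^ n := by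
  rw [rd_of_mem hx, rd_of_mem (pow_mem hx n), ← map_pow]; rfl

lemma rd_natCast (n : ℕ) : rd A φ (n : K) = (n : κ) := by
  rw [rd_of_mem (natCast_mem A n)]
  have : (⟨(n : K), natCast_mem A n⟩ : A) = (n : A) := rfl
  rw [this, map_natCast]

lemma rd_ofNat (n : ℕ) [n.AtLeastTwo] : rd A φ (OfNat.ofNat n : K) = (OfNat.ofNat n : κ) := by
  have := rd_natCast (A := A) (φ := φ) (OfNat.ofNat n)
  rwa [Nat.cast_ofNat, Nat.cast_ofNat] at this

lemma mem_of_val_le {x : K} (h : A.valuation x ≤ 1) : x ∈ A := (A.valuation_le_one_iff x).mp h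

lemma val_le_of_mem {x : K} (h : x ∈ A) : A.valuation x ≤ 1 := (A.valuation_le_one_iff x).mpr h

omit [Field κ] in
lemma inv_mem_of_val_eq_one {x : K} (hx : A.valuation x = 1) : x⁻¹ ∈ A := by
  apply (A.valuation_le_one_iff _).mp
  rw [map_inv₀, hx, inv_one]

omit [Field κ] in
lemma div_mem_of_val_eq_one {x y : K} (hx : x ∈ A) (hy : A.valuation y = 1) : x / y ∈ A := by
  rw [div_eq_mul_inv]; exact A.mul_mem _ _ hx (inv_mem_of_val_eq_one hy)

end

/-- The kernel of `φ` is the maximal ideal. -/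
def KerMax (A : ValuationSubring K) (φ : A →+* κ) : Prop :=
  ∀ a : A, φ a = 0 ↔ A.valuation (a : K) < 1

lemma kerMax_of_isLocalHom (A : ValuationSubring K) (φ : A →+* κ) [IsLocalHom φ] :
    KerMax A φ := by
  intro a
  rw [← A.valuation_lt_one_iff, IsLocalRing.mem_maximalIdeal, mem_nonunits_iff]
  constructor
  · intro h hu
    have := hu.map φ
    rw [h] at this
    exact not_isUnit_zero this
  · intro h
    by_contra h0
    exact h (IsLocalHom.map_nonunit a (isUnit_iff_ne_zero.mpr h0))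

/-- The residue map of `A` has kernel the maximal ideal. -/
lemma kerMax_residue (A : ValuationSubring K) :
    KerMax A (IsLocalRing.residue A) := by
  intro a
  rw [← A.valuation_lt_one_iff]
  exact IsLocalRing.residue_eq_zero_iff a

section

variable {A : ValuationSubring K} {φ : A →+* κ} (hφ : KerMax A φ)
include hφ

lemma rd_eq_zero_iff {x : K} (hx : x ∈ A) : rd A φ x = 0 ↔ A.valuation x < 1 := by
  rw [rd_of_mem hx]; exact hφ ⟨x, hx⟩

lemma rd_eq_zero_of_lt {x : K} (hx : A.valuation x < 1) : rd A φ x = 0 :=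
  (rd_eq_zero_iff hφ (mem_of_val_le hx.le)).mpr hx

lemma rd_ne_zero_iff {x : K} (hx : x ∈ A) : rd A φ x ≠ 0 ↔ A.valuation x = 1 := by
  rw [Ne, rd_eq_zero_iff hφ hx, not_lt]
  exact ⟨fun h => le_antisymm (val_le_of_mem hx) h, fun h => h.ge⟩

lemma rd_eq_iff {x y : K} (hx : x ∈ A) (hy : y ∈ A) :
    rd A φ x = rd A φ y ↔ A.valuation (x - y) < 1 := by
  rw [← rd_eq_zero_iff hφ (A.sub_mem hx hy), rd_sub hx hy, sub_eq_zero]

omit hφ in
lemma rd_inv {x : K} (hx : A.valuation x = 1) : rd A φ x⁻¹ = (rd A φ x)⁻¹ := by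
  have hxA : x ∈ A := mem_of_val_le hx.le
  have hiA : x⁻¹ ∈ A := inv_mem_of_val_eq_one hx
  have hx0 : x ≠ 0 := by
    rintro rfl; rw [map_zero] at hx; exact zero_ne_one hx
  have h1 : rd A φ x * rd A φ x⁻¹ = 1 := by
    rw [← rd_mul hxA hiA, mul_inv_cancel₀ hx0, rd_one]
  exact eq_inv_of_mul_eq_one_right h1

omit hφ in
lemma rd_div {x y : K} (hx : x ∈ A) (hy : A.valuation y = 1) :
    rd A φ (x / y) = rd A φ x / rd A φ y := by
  rw [div_eq_mul_inv, rd_mul hx (inv_mem_of_val_eq_one hy), rd_inv hy, div_eq_mul_inv]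

end

end Fermat.Agent.Lib.Red.H290
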