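import Fermat.Agent.Lib.Red.H290.RedCurve

/-!
# The slope reduces (S52 piece A1b, part 3)

If `P = (x₁, y₁)`, `Q = (x₂, y₂)` are integral points of `W` whose reductions `P̄`, `Q̄` satisfy
`P̄ ≠ -Q̄`, then the slope of the line through `P` and `Q` (tangent if `P = Q`) is integral and
reduces to the slope of the line through `P̄`, `Q̄`.
-/

set_option autoImplicit false

namespace Fermat.Agent.Lib.Red.H290

open WeierstrassCurve WeierstrassCurve.Affine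

variable {K : Type*} [Field K] [DecidableEq K] {κ : Type*} [Field κ] [DecidableEq κ]
variable {A : ValuationSubring K} {φ : A →+* κ} {W : Affine K} {Wκ : Affine κ}

omit [DecidableEq κ] in
/-- `y`-integrality of integral points. -/
lemma y_mem_of_x_mem (h : IsRedOf A φ W Wκ) {x y : K} (hxy : W.Equation x y) (hx : x ∈ A) :
    y ∈ A :=
  mem_of_val_le (Fermat.Agent.S05.GoodRed.val_y_le_one h.integralCoeffs hxy (val_le_of_mem hx))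

omit [DecidableEq K] [DecidableEq κ] in
/-- The secant numerator `g` with `(y₁ - y₂) (y₁ - negY x₂ y₂) = (x₁ - x₂) g`. -/
lemma secant_key {x₁ y₁ x₂ y₂ : K} (e₁ : W.Equation x₁ y₁) (e₂ : W.Equation x₂ y₂) :
    (y₁ - y₂) * (y₁ - W.negY x₂ y₂) =
      (x₁ - x₂) * (x₁ ^ 2 + x₁ * x₂ + x₂ ^ 2 + W.a₂ * (x₁ + x₂) + W.a₄ - W.a₁ * y₁) := by
  rw [Affine.equation_iff] at e₁ e₂
  simp only [Affine.negY]
  linear_combination e₁ - e₂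

omit [DecidableEq K] [DecidableEq κ] in
lemma rd_secantNum (h : IsRedOf A φ W Wκ) {x₁ y₁ x₂ : K} (hx₁ : x₁ ∈ A) (hy₁ : y₁ ∈ A)
    (hx₂ : x₂ ∈ A) :
    x₁ ^ 2 + x₁ * x₂ + x₂ ^ 2 + W.a₂ * (x₁ + x₂) + W.a₄ - W.a₁ * y₁ ∈ A ∧
    rd A φ (x₁ ^ 2 + x₁ * x₂ + x₂ ^ 2 + W.a₂ * (x₁ + x₂) + W.a₄ - W.a₁ * y₁) =
      rd A φ x₁ ^ 2 + rd A φ x₁ * rd A φ x₂ + rd A φ x₂ ^ 2 +
        Wκ.a₂ * (rd A φ x₁ + rd A φ x₂) + Wκ.a₄ - Wκ.a₁ * rd A φ y₁ := by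
  obtain ⟨c₁, c₂, c₃, c₄, c₆, e₁, e₂, e₃, e₄, e₆, f₁, f₂, f₃, f₄, f₆⟩ := h.exists_lift
  lift x₁ to A using hx₁
  lift y₁ to A using hy₁
  lift x₂ to A using hx₂
  simp only [← e₁, ← e₂, ← e₄, ← f₁, ← f₂, ← f₄]
  have : ((x₁ : K) ^ 2 + x₁ * x₂ + x₂ ^ 2 + c₂ * (x₁ + x₂) + c₄ - c₁ * y₁) =
      ((x₁ ^ 2 + x₁ * x₂ + x₂ ^ 2 + c₂ * (x₁ + x₂) + c₄ - c₁ * y₁ : A) : K) := by
    push_cast; rfl
  rw [this, rd_coe, rd_coe, rd_coe, rd_coe]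
  refine ⟨Subtype.mem _, ?_⟩
  simp only [map_sub, map_add, map_mul, map_pow]

/-- **The slope reduces.** -/
theorem slope_mem_and_rd (h : IsRedOf A φ W Wκ) (hφ : KerMax A φ) {x₁ y₁ x₂ y₂ : K}
    (hx₁ : x₁ ∈ A) (hx₂ : x₂ ∈ A) (e₁ : W.Equation x₁ y₁) (e₂ : W.Equation x₂ y₂)
    (hne : ¬(rd A φ x₁ = rd A φ x₂ ∧ rd A φ y₁ = Wκ.negY (rd A φ x₂) (rd A φ y₂))) :
    W.slope x₁ x₂ y₁ y₂ ∈ A ∧
      rd A φ (W.slope x₁ x₂ y₁ y₂) =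
        Wκ.slope (rd A φ x₁) (rd A φ x₂) (rd A φ y₁) (rd A φ y₂) := by
  have hy₁ : y₁ ∈ A := y_mem_of_x_mem h e₁ hx₁
  have hy₂ : y₂ ∈ A := y_mem_of_x_mem h e₂ hx₂
  by_cases hxb : rd A φ x₁ = rd A φ x₂
  · -- same reduced `x`
    have hyb : rd A φ y₁ ≠ Wκ.negY (rd A φ x₂) (rd A φ y₂) := fun hy => hne ⟨hxb, hy⟩
    have eb₁ := rd_equation h hx₁ hy₁ e₁
    have eb₂ := rd_equation h hx₂ hy₂ e₂
    have hyy : rd A φ y₁ = rd A φ y₂ := Affine.Y_eq_of_Y_ne eb₁ eb₂ hxb hyb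
    -- the unit denominator
    have hnA : y₁ - W.negY x₂ y₂ ∈ A := A.sub_mem hy₁ (negY_mem h hx₂ hy₂)
    have hnrd : rd A φ (y₁ - W.negY x₂ y₂) =
        rd A φ y₁ - Wκ.negY (rd A φ x₁) (rd A φ y₁) := by
      rw [rd_sub hy₁ (negY_mem h hx₂ hy₂), rd_negY h hx₂ hy₂, ← hxb, ← hyy]
    have hnne : rd A φ (y₁ - W.negY x₂ y₂) ≠ 0 := by
      rw [rd_sub hy₁ (negY_mem h hx₂ hy₂), rd_negY h hx₂ hy₂]
      exact sub_ne_zero.mpr hyb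
    have hnv : A.valuation (y₁ - W.negY x₂ y₂) = 1 := (rd_ne_zero_iff hφ hnA).mp hnne
    have hn0 : y₁ - W.negY x₂ y₂ ≠ 0 := by
      intro h0; rw [h0, map_zero] at hnv; exact zero_ne_one hnv
    rw [Affine.slope_of_Y_ne hxb hyb]
    by_cases hxx : x₁ = x₂
    · subst hxx
      have hyK : y₁ ≠ W.negY x₁ y₂ := by
        intro hy
        apply hyb
        rw [hy, rd_negY h hx₁ hy₂]
      have hy12 : y₁ = y₂ := Affine.Y_eq_of_Y_ne e₁ e₂ rfl hyK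
      subst hy12
      rw [Affine.slope_of_Y_ne rfl hyK]
      obtain ⟨hgA, hgrd⟩ := rd_slopeNum h hx₁ hy₁
      refine ⟨div_mem_of_val_eq_one hgA hnv, ?_⟩
      rw [rd_div hgA hnv, hgrd, hnrd]
    · rw [Affine.slope_of_X_ne hxx]
      obtain ⟨hgA, hgrd⟩ := rd_secantNum h hx₁ hy₁ hx₂
      have key := secant_key e₁ e₂
      have hd0 : x₁ - x₂ ≠ 0 := sub_ne_zero.mpr hxx
      have hsl : (y₁ - y₂) / (x₁ - x₂) =
          (x₁ ^ 2 + x₁ * x₂ + x₂ ^ 2 + W.a₂ * (x₁ + x₂) + W.a₄ - W.a₁ * y₁) /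
            (y₁ - W.negY x₂ y₂) := by
        rw [div_eq_div_iff hd0 hn0, key]; ring
      rw [hsl]
      refine ⟨div_mem_of_val_eq_one hgA hnv, ?_⟩
      rw [rd_div hgA hnv, hgrd, hnrd, ← hxb]
      congr 1
      ring
  · -- distinct reduced `x`
    have hdA : x₁ - x₂ ∈ A := A.sub_mem hx₁ hx₂
    have hdne : rd A φ (x₁ - x₂) ≠ 0 := by
      rw [rd_sub hx₁ hx₂]; exact sub_ne_zero.mpr hxb
    have hdv : A.valuation (x₁ - x₂) = 1 := (rd_ne_zero_iff hφ hdA).mp hdne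
    have hxx : x₁ ≠ x₂ := by
      rintro rfl; exact hxb rfl
    rw [Affine.slope_of_X_ne hxx, Affine.slope_of_X_ne hxb]
    refine ⟨div_mem_of_val_eq_one (A.sub_mem hy₁ hy₂) hdv, ?_⟩
    rw [rd_div (A.sub_mem hy₁ hy₂) hdv, rd_sub hy₁ hy₂, rd_sub hx₁ hx₂]

end Fermat.Agent.Lib.Red.H290
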